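import Fermat.Agent.CFT.TWPrimes.Detect
import Fermat.Agent.Arith.Chebotarev.Main
import Fermat.Prelude.Def_GaloisRep_Residual

/-!
# Taylor–Wiles primes
-/

set_option autoImplicit false

noncomputable section

namespace Fermat.Agent.CFT.TWPrimes

open Matrix
open Fermat.Agent.Arith Fermat.Agent.Arith.Density Fermat.Agent.Arith.Chebotarev
open scoped Classical Pointwise

/-- Distinct choices from infinitely many candidates. -/
theorem exists_injOn_choice {ι : Type*} {P : ι → ℕ → Prop}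
    (h : ∀ (i : ι) (S : Finset ℕ), ∃ q, q ∉ S ∧ P i q) (F : Finset ι) :
    ∀ S : Finset ℕ, ∃ q : ι → ℕ, (∀ i ∈ F, P i (q i) ∧ q i ∉ S) ∧ Set.InjOn q F := by
  induction F using Finset.induction_on with
  | empty => exact fun S => ⟨fun _ => 0, by simp, by simp⟩
  | @insert a F ha ih =>
    intro S
    obtain ⟨qa, hqa, hPa⟩ := h a S
    obtain ⟨q, hq, hinj⟩ := ih (insert qa S)
    have hq' : ∀ i ∈ F, Function.update q a qa i = q i := fun i hi =>
      Function.update_of_ne (fun e => ha (by rw [← e]; exact hi)) _ _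
    refine ⟨Function.update q a qa, fun i hi => ?_, ?_⟩
    · rcases Finset.mem_insert.mp hi with rfl | hi'
      · rw [Function.update_self]; exact ⟨hPa, hqa⟩
      · rw [hq' i hi']
        exact ⟨(hq i hi').1, fun hm => (hq i hi').2 (Finset.mem_insert_of_mem hm)⟩
    · rw [Finset.coe_insert, Set.injOn_insert (by simpa using ha)]
      refine ⟨hinj.congr fun i hi => (hq' i hi).symm, fun ⟨i, hi, e⟩ => (hq i hi).2 ?_⟩
      rw [Function.update_self, hq' i hi] at e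
      exact e ▸ Finset.mem_insert_self _ _

variable {k : Type} [Field k]

variable [Finite k]

/-- Group theoretic selection: regular elements of `G₀` on which the trace functions of
independent classes form an invertible matrix. -/
theorem exists_detecting_family {G : Type*} [Group G] {r : G →* Matrix (Fin 2) (Fin 2) k}
    (p : ℕ) [Fact p.Prime] [CharP k p] {G₀ : Subgroup G} [G₀.Normal]
    (hδ : ∀ a : ℕ, ¬p ∣ a → ∃ g, (r g).det = (a : k)) (hr : TWHyp r)
    (hdet : ∀ g ∈ G₀, (r g).det = 1) (hab : ∀ g h : G, g * h * g⁻¹ * h⁻¹ ∈ G₀)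
    {ι : Type} [Fintype ι] (b : ι → G → Matrix (Fin 2) (Fin 2) k) (hb : ∀ i, IsCocycle r (b i))
    (hind : ∀ c : ι → k, ∀ X : Matrix (Fin 2) (Fin 2) k, X.trace = 0 →
      (∀ g, ∑ i, c i • b i g = cobd r X g) → c = 0) :
    ∃ g : ι → G, (∀ i, g i ∈ G₀ ∧ (r (g i)).trace ^ 2 ≠ 4) ∧
      ∀ c : ι → k, (∀ i, ∑ j, c j * phi r (b j) (g i) = 0) → c = 0 := by
  let good := {g : G // g ∈ G₀ ∧ (r g).trace ^ 2 ≠ 4}
  let v : good → (ι → k) := fun g j => phi r (b j) g.1
  have hspan : Submodule.span k (Set.range v) = ⊤ := by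
    by_contra hne
    obtain ⟨f, hf0, hf⟩ := Submodule.exists_le_ker_of_lt_top _ (lt_top_iff_ne_top.mpr hne)
    set c : ι → k := fun j => f (Pi.single j 1) with hc
    have hcf : ∀ w : ι → k, f w = ∑ j, c j * w j := fun w => by
      conv_lhs => rw [pi_eq_sum_univ' w]
      rw [map_sum]
      exact Finset.sum_congr rfl fun j _ => by
        rw [map_smul, smul_eq_mul, mul_comm, hc]
    have hc0 : c ≠ 0 := fun e => hf0 (LinearMap.ext fun w => by simp [hcf w, e])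
    obtain ⟨g, hg, hreg, hphi⟩ := (IsCocycle.sum Finset.univ c fun i _ => hb i).exists_detect p hδ hr
      hdet hab fun ⟨X, hX, e⟩ => hc0 (hind c X hX e)
    refine hphi ?_
    have e := hf (Submodule.subset_span ⟨⟨g, hg, hreg⟩, rfl⟩)
    rw [LinearMap.mem_ker, hcf] at e
    rw [phi, Finset.sum_mul, Matrix.trace_sum, ← e]
    exact Finset.sum_congr rfl fun j _ => by
      rw [smul_mul_assoc, Matrix.trace_smul, smul_eq_mul]
      rfl
  obtain ⟨κ, a, -, hsp, hli⟩ := exists_linearIndependent' k v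
  rw [hspan] at hsp
  let B := Module.Basis.mk hli hsp.ge
  let e : κ ≃ ι := B.indexEquiv (Pi.basisFun k ι)
  refine ⟨fun i => (a (e.symm i)).1, fun i => (a (e.symm i)).2, fun c hc => funext fun j => ?_⟩
  let f : (ι → k) →ₗ[k] k := ∑ j, c j • LinearMap.proj j
  have hf : f = 0 := B.ext fun x => by
    have e' := hc (e x)
    simp only [Equiv.symm_apply_apply] at e'
    rw [Module.Basis.mk_apply, LinearMap.zero_apply]
    simpa [f, v, Function.comp] using e'
  have := LinearMap.congr_fun hf (Pi.single j 1)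
  simpa [f, Pi.single_apply] using this

/-- **Taylor–Wiles primes**. -/
theorem exists_taylorWilesPrimes (p : ℕ) [Fact p.Prime] [CharP k p]
    (r : GQ →* Matrix (Fin 2) (Fin 2) k) (hr : TWHyp r) (hrfin : GaloisFactorsThroughFiniteLevel r)
    (hcyc : ∀ (σ : GQ) (a : ℕ), (∀ μ : QBar, μ ^ p = 1 → σ μ = μ ^ a) → (r σ).det = (a : k))
    {ι : Type} [Fintype ι] (b : ι → GQ → Matrix (Fin 2) (Fin 2) k)
    (hb : ∀ i, IsCocycle r (b i))
    (hbfin : ∀ i, ∃ L : IntermediateField ℚ QBar, FiniteDimensional ℚ L ∧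
      ∀ σ : GQ, (∀ x ∈ L, σ x = x) → b i σ = 0)
    (hind : ∀ c : ι → k, ∀ X : Matrix (Fin 2) (Fin 2) k, X.trace = 0 →
      (∀ g, ∑ i, c i • b i g = cobd r X g) → c = 0)
    (S : Finset ℕ) (n : ℕ) :
    ∃ q : ι → ℕ, Function.Injective q ∧
      (∀ i, (q i).Prime ∧ q i ∉ S ∧ q i ≠ p ∧ p ^ (n + 1) ∣ q i - 1) ∧
      (∀ i, ∀ P : ValuationSubring QBar, P.LiesOverPrime (q i) → ∀ τ ∈ P.inertiaSubgroupIn ℚ,
        r τ = 1 ∧ ∀ j, b j τ = 0) ∧
      (∀ i, ∀ P : ValuationSubring QBar, P.LiesOverPrime (q i) → ∀ φ : GQ,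
        P.IsFrobeniusAt φ (q i) → (r φ).det = 1 ∧ (r φ).trace ^ 2 ≠ 4 ∧
          ∃ α β : k, α ≠ β ∧ (r φ).charpoly =
            (Polynomial.X - Polynomial.C α) * (Polynomial.X - Polynomial.C β)) ∧
      ∀ (P : ι → ValuationSubring QBar) (φ : ι → GQ), (∀ i, (P i).LiesOverPrime (q i)) →
        (∀ i, (P i).IsFrobeniusAt (φ i) (q i)) →
        ∀ c : ι → k, (∀ i, ∑ j, c j * phi r (b j) (φ i) = 0) → c = 0 := by
  have hpp : p.Prime := Fact.out
  have : NeZero (p ^ (n + 1)) := ⟨pow_ne_zero _ hpp.ne_zero⟩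
  obtain ⟨ζ, hζ⟩ := HasEnoughRootsOfUnity.exists_primitiveRoot QBar (p ^ (n + 1))
  set χ : GQ →* (ZMod (p ^ (n + 1)))ˣ := hζ.autToPow ℚ
  obtain ⟨Lr, hLr, hLr'⟩ := hrfin
  choose Lb hLb hLb' using hbfin
  have : FiniteDimensional ℚ (IntermediateField.adjoin ℚ {ζ}) :=
    IntermediateField.adjoin.finiteDimensional (Algebra.IsIntegral.isIntegral ζ)
  let Lbig : IntermediateField ℚ QBar := Lr ⊔ (⨆ i, Lb i) ⊔ IntermediateField.adjoin ℚ {ζ}
  have : FiniteDimensional ℚ Lbig := inferInstance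
  let L' : IntermediateField ℚ QBar := IntermediateField.normalClosure ℚ Lbig QBar
  have : Normal ℚ L' := normalClosure.normal ℚ Lbig QBar
  have : IsGalois ℚ L' := ⟨⟩
  have : FiniteDimensional ℚ L' := normalClosure.is_finiteDimensional ℚ Lbig QBar
  have hLL : Lbig ≤ L' := Lbig.le_normalClosure
  have hle1 : Lr ≤ L' := le_trans (le_trans le_sup_left le_sup_left) hLL
  have hle2 : ∀ i, Lb i ≤ L' := fun i =>
    le_trans (le_trans (le_trans (le_iSup Lb i) le_sup_right) le_sup_left) hLL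
  have hle3 : ζ ∈ L' := hLL ((le_sup_right : IntermediateField.adjoin ℚ {ζ} ≤ Lbig)
    (IntermediateField.mem_adjoin_simple_self ℚ ζ))
  -- everything only depends on the restriction to `L'`
  have hfix : ∀ τ : GQ, AlgEquiv.restrictNormalHom L' τ = 1 →
      r τ = 1 ∧ (∀ j, b j τ = 0) ∧ χ τ = 1 := fun τ hτ => by
    rw [restrictNormalHom_eq_one_iff] at hτ
    refine ⟨hLr' τ fun x hx => hτ x (hle1 hx), fun j => hLb' j τ fun x hx => hτ x (hle2 j hx),
      Units.ext ?_⟩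
    exact (autToPow_eq hζ (b := 1) (by rw [pow_one]; exact hτ ζ hle3)).trans Nat.cast_one
  have hfix' : ∀ σ g : GQ, AlgEquiv.restrictNormalHom L' σ = AlgEquiv.restrictNormalHom L' g →
      r σ = r g ∧ (∀ j, b j σ = b j g) ∧ χ σ = χ g := fun σ g e => by
    obtain ⟨h1, h2, h3⟩ := hfix (g⁻¹ * σ) (by rw [map_mul, map_inv, e, inv_mul_cancel])
    refine ⟨?_, fun j => ?_, ?_⟩
    · rw [← mul_inv_cancel_left g σ, map_mul, h1, mul_one]
    · rw [← mul_inv_cancel_left g σ, (hb j).map_mul, h2 j, map_zero, zero_add]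
    · rw [← mul_inv_cancel_left g σ, map_mul, h3, mul_one]
  -- the hypotheses for the group theory
  have hroot : ∀ σ ∈ χ.ker, σ ζ = ζ := fun σ hσ => by
    have e := hζ.autToPow_spec ℚ σ
    rw [show hζ.autToPow ℚ σ = 1 from hσ, Units.val_one] at e
    have : Fact (1 < p ^ (n + 1)) := ⟨Nat.one_lt_pow n.succ_ne_zero hpp.one_lt⟩
    rw [ZMod.val_one, pow_one] at e
    exact e.symm
  have hdet : ∀ σ ∈ χ.ker, (r σ).det = 1 := fun σ hσ => by
    rw [hcyc σ 1 fun μ hμ => ?_, Nat.cast_one]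
    obtain ⟨i, -, rfl⟩ := hζ.eq_pow_of_pow_eq_one (ξ := μ) (by
      rw [pow_succ', pow_mul, hμ, one_pow])
    rw [map_pow, hroot σ hσ, pow_one]
  have hδ : ∀ a : ℕ, ¬p ∣ a → ∃ σ, (r σ).det = (a : k) := fun a ha => by
    have : NeZero p := ⟨hpp.ne_zero⟩
    obtain ⟨ξ, hξ⟩ := HasEnoughRootsOfUnity.exists_primitiveRoot QBar p
    obtain ⟨σ, hσ⟩ := autToPow_surjective hξ
      (ZMod.unitOfCoprime a ((Nat.Prime.coprime_iff_not_dvd hpp).mpr ha).symm)
    refine ⟨σ, hcyc σ a fun μ hμ => ?_⟩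
    obtain ⟨i, -, rfl⟩ := hξ.eq_pow_of_pow_eq_one hμ
    have e := hξ.autToPow_spec ℚ σ
    rw [hσ, ZMod.coe_unitOfCoprime, ZMod.val_natCast, ← pow_eq_pow_mod a hξ.pow_eq_one] at e
    rw [map_pow, ← e, pow_right_comm]
  have hab : ∀ g h : GQ, g * h * g⁻¹ * h⁻¹ ∈ χ.ker := fun g h => by
    rw [MonoidHom.mem_ker, map_mul, map_mul, map_mul, map_inv, map_inv, mul_comm (χ g) (χ h),
      mul_inv_cancel_right, mul_inv_cancel]
  obtain ⟨g, hg, hdetect⟩ :=
    exists_detecting_family p (G₀ := χ.ker) hδ hr hdet hab b hb hind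
  -- the primes
  obtain ⟨B, hB⟩ := exists_bound_good L'
  have hcand : ∀ (i : ι) (T : Finset ℕ), ∃ q, q ∉ T ∧ (q.Prime ∧ B < q ∧ q ∉ S ∧ q ≠ p ∧
      ∃ A : ValuationSubring QBar, A.LiesOverPrime q ∧ ∃ σ : GQ, A.IsFrobeniusAt σ q ∧
        AlgEquiv.restrictNormalHom L' σ = AlgEquiv.restrictNormalHom L' (g i)) := fun i T => by
    obtain ⟨q, hq, hqT, A, hA, σ, hσ, he⟩ := exists_frobenius_restrict_eq L' (g i)
      (T ∪ S ∪ Finset.range (B + 1) ∪ {p})
    simp only [Finset.mem_union, Finset.mem_range, Finset.mem_singleton, not_or] at hqT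
    exact ⟨q, hqT.1.1.1, hq, by omega, hqT.1.1.2, hqT.2, A, hA, σ, hσ, he⟩
  obtain ⟨q, hq, hinj⟩ := exists_injOn_choice hcand Finset.univ ∅
  replace hq := fun i => (hq i (Finset.mem_univ i)).1
  have hunr : ∀ i, ∀ P : ValuationSubring QBar, P.LiesOverPrime (q i) →
      ∀ τ ∈ P.inertiaSubgroupIn ℚ, r τ = 1 ∧ ∀ j, b j τ = 0 := fun i P hP τ hτ => by
    obtain ⟨hqp, hqB, -, -, -⟩ := hq i
    obtain ⟨h1, h2, -⟩ := hfix τ (inertia_fixes_of_good L' hqp (hB _ hqp hqB) hP hτ)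
    exact ⟨h1, h2⟩
  have hfrob : ∀ i, ∀ P : ValuationSubring QBar, P.LiesOverPrime (q i) → ∀ φ : GQ,
      P.IsFrobeniusAt φ (q i) → (r φ).det = 1 ∧ (r φ).trace = (r (g i)).trace ∧
        ∃ x : GQ, ∀ j, phi r (b j) φ = (r x).det * phi r (b j) (g i) := by
    intro i P hP φ hφ
    obtain ⟨hqp, -, -, -, A, hA, σ, hσ, he⟩ := hq i
    obtain ⟨x, rfl⟩ := exists_smul_eq hA hP hqp
    obtain ⟨h1, h2⟩ := hunr i _ hP _ (inv_mul_mem_inertia (isFrobeniusAt_conj (g := x) hσ) hφ)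
    obtain ⟨e1, e2, -⟩ := hfix' σ (g i) he
    have hr' : r φ = r (x * σ * x⁻¹) := by
      rw [← mul_inv_cancel_left φ (x * σ * x⁻¹), map_mul, h1, mul_one]
    have hb' : ∀ j, b j φ = b j (x * σ * x⁻¹) := fun j => by
      rw [← mul_inv_cancel_left φ (x * σ * x⁻¹), (hb j).map_mul, h2 j, map_zero, zero_add]
    have hdσ : (r σ).det = 1 := by rw [e1]; exact hdet _ (hg i).1
    refine ⟨?_, ?_, x, fun j => ?_⟩
    · rw [hr', map_mul, map_mul, det_mul, det_mul, hdσ, mul_one, ← det_mul, mul_rinv, det_one]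
    · rw [hr', map_mul, map_mul, trace_conj, e1]
    · rw [phi, hb' j, hr', ← phi, (hb j).phi_conj x hdσ, phi, e1, e2 j, ← phi]
  refine ⟨q, fun i j e => hinj (Finset.mem_univ i) (Finset.mem_univ j) e, fun i => ?_, hunr, ?_,
    fun P φ hP hφ c hc => hdetect c fun i => ?_⟩
  · obtain ⟨hqp, -, hqS, hqne, A, hA, σ, hσ, he⟩ := hq i
    refine ⟨hqp, hqS, hqne, ?_⟩
    obtain ⟨-, -, e3⟩ := hfix' σ (g i) he
    have e4 := autToPow_frobenius hζ hA hqp hσ
      fun h => hqne ((Nat.prime_dvd_prime_iff_eq hqp hpp).mp (hqp.dvd_of_dvd_pow h))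
    rw [show hζ.autToPow ℚ σ = 1 from e3.trans (hg i).1, Units.val_one] at e4
    exact (Nat.modEq_iff_dvd' hqp.one_le).mp
      ((ZMod.natCast_eq_natCast_iff 1 (q i) _).mp (by rw [Nat.cast_one, e4]))
  · intro i P hP φ hφ
    obtain ⟨hd, ht, -⟩ := hfrob i P hP φ hφ
    obtain ⟨α, β, htr, hdt⟩ := hr.split φ
    refine ⟨hd, ht ▸ (hg i).2, α, β, fun e => (hg i).2 ?_, ?_⟩
    · rw [← ht, htr, e]
      rw [hd, e] at hdt
      linear_combination -4 * hdt
    · rw [Matrix.charpoly_fin_two, htr, hdt, map_add, map_mul]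
      ring
  · obtain ⟨-, -, x, hx⟩ := hfrob i (P i) (hP i) (φ i) (hφ i)
    have e := hc i
    simp only [hx, mul_left_comm (c _) (r x).det, ← Finset.mul_sum] at e
    exact (mul_eq_zero.mp e).resolve_left (det_ne_zero x)

end Fermat.Agent.CFT.TWPrimes
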