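import Fermat.Agent.CFT.TWPrimes.Cocycle

/-!
# The trace function of a cocycle of the image vanishes on elements of determinant one
-/

set_option autoImplicit false

noncomputable section

namespace Fermat.Agent.CFT.TWPrimes

open Matrix

variable {G : Type*} [Group G] {k : Type*} [Field k] {r : G →* Matrix (Fin 2) (Fin 2) k}
  {b : G → Matrix (Fin 2) (Fin 2) k}

local notation "M₂" => Matrix (Fin 2) (Fin 2) k

theorem det_one_add {N : Matrix (Fin 2) (Fin 2) k} (h : N * N = 0) : (1 + N).det = 1 := by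
  have h1 := trace_eq_zero_of_sq h
  have h2 := det_eq_zero_of_sq h
  rw [Matrix.trace_fin_two] at h1
  rw [Matrix.det_fin_two] at h2
  simp [Matrix.det_fin_two]
  linear_combination h1 + h2

theorem smul_sq {N : Matrix (Fin 2) (Fin 2) k} (h : N * N = 0) (c : k) :
    (c • N) * (c • N) = 0 := by
  rw [smul_mul_smul_comm, h, smul_zero]

theorem det_eq_one {u : G} {N : Matrix (Fin 2) (Fin 2) k} (hu : r u = 1 + N) (hN : N * N = 0) :
    (r u).det = 1 := hu ▸ det_one_add hN

theorem map_pow_unip {u : G} {N : Matrix (Fin 2) (Fin 2) k} (hu : r u = 1 + N) (hN : N * N = 0)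
    (n : ℕ) : r (u ^ n) = 1 + (n : k) • N := by rw [map_pow, hu, pow_one_add hN]

theorem map_inv_unip {u : G} {N : Matrix (Fin 2) (Fin 2) k} (hu : r u = 1 + N) (hN : N * N = 0) :
    r u⁻¹ = 1 - N := by
  calc r u⁻¹ = r u⁻¹ * ((1 + N) * (1 - N)) := by
        rw [add_mul, mul_sub, mul_sub, one_mul, one_mul, mul_one, hN, sub_zero, sub_add_cancel,
          mul_one]
    _ = 1 - N := by rw [← hu, ← mul_assoc, rinv_mul, one_mul]

theorem map_conj_unip {u : G} {N : Matrix (Fin 2) (Fin 2) k} (hu : r u = 1 + N) (g : G) :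
    r (g * u * g⁻¹) = 1 + r g * N * r g⁻¹ := by
  rw [map_mul, map_mul, hu, mul_add, add_mul, mul_one, mul_rinv]

theorem conj_sq {N : Matrix (Fin 2) (Fin 2) k} (hN : N * N = 0) (g : G) :
    (r g * N * r g⁻¹) * (r g * N * r g⁻¹) = 0 := by
  rw [show r g * N * r g⁻¹ * (r g * N * r g⁻¹) = r g * N * (r g⁻¹ * r g) * N * r g⁻¹ by
    simp only [mul_assoc], rinv_mul, mul_one, mul_assoc (r g) N N, hN, mul_zero, zero_mul]

/-- A cocycle vanishing on the kernel of `r` only depends on the image. -/
theorem IsCocycle.congr (hb : IsCocycle r b) (hker : ∀ g, r g = 1 → b g = 0) {g h : G}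
    (e : r g = r h) : b g = b h := by
  have h1 : b (h⁻¹ * g) = 0 := hker _ (by rw [_root_.map_mul, e, rinv_mul])
  have h2 := hb.map_mul h (h⁻¹ * g)
  rwa [mul_inv_cancel_left, h1, map_zero, zero_add] at h2

theorem IsCocycle.phi_congr (hb : IsCocycle r b) (hker : ∀ g, r g = 1 → b g = 0) {g h : G}
    (e : r g = r h) : phi r b g = phi r b h := by
  rw [phi, phi, hb.congr hker e, e]

theorem IsCocycle.phi_pow_unip (hb : IsCocycle r b) {u : G} {N : Matrix (Fin 2) (Fin 2) k}
    (hu : r u = 1 + N) (hN : N * N = 0) (n : ℕ) :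
    phi r b (u ^ n) = (n : k) ^ 2 * phi r b u := by
  have h := hb.trace_pow_mul (det_eq_one hu hN) (A := N)
    (by rw [hu, add_mul, mul_add, one_mul, mul_one]) n
  rw [phi, phi, map_pow_unip hu hN, hu, mul_add, mul_add, mul_one, mul_one, Matrix.trace_add,
    Matrix.trace_add, hb.trace, hb.trace, zero_add, zero_add, mul_smul_comm, Matrix.trace_smul,
    smul_eq_mul, h]
  ring

variable [Finite k]

/-- The trace function vanishes at regular semisimple elements of determinant one. -/
theorem IsCocycle.phi_eq_zero_of_regular (hr : TWHyp r) (hb : IsCocycle r b)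
    (hker : ∀ g, r g = 1 → b g = 0) {h : G} (hd : (r h).det = 1)
    (ht : (r h).trace ^ 2 ≠ 4) : phi r b h = 0 := by
  have := Fintype.ofFinite k
  obtain ⟨α, β, htr, hdet⟩ := hr.split h
  rw [hd] at hdet
  have hne : β - α ≠ 0 := fun e => ht (by
    rw [htr, sub_eq_zero.mp e]
    rw [sub_eq_zero.mp e] at hdet
    linear_combination -4 * hdet)
  set e := (β - α)⁻¹ • (r h - α • (1 : M₂)) with he_def
  have hidem : e * e = e := by
    rw [he_def]
    have : (r h - α • (1 : M₂)) * (r h - α • (1 : M₂)) = (β - α) • (r h - α • (1 : M₂)) := by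
      rw [sub_mul, mul_sub, mul_sub, mul_self_eq, hd, hdet, htr]
      simp only [smul_mul_assoc, mul_smul_comm, one_mul, mul_one]
      module
    rw [smul_mul_smul_comm, this, smul_smul, mul_assoc, inv_mul_cancel₀ hne, mul_one]
  have hA : r h = α • (1 : M₂) + (β - α) • e := by
    rw [he_def, smul_smul, mul_inv_cancel₀ hne, one_smul]
    abel
  have hpow : ∀ n : ℕ, r h ^ n = α ^ n • (1 : M₂) + (β ^ n - α ^ n) • e := fun n => by
    induction n with
    | zero => simp
    | succ n ih =>
      rw [pow_succ, ih, hA]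
      simp only [add_mul, mul_add, smul_mul_assoc, mul_smul_comm, one_mul, mul_one, hidem]
      module
  have h0 : α ≠ 0 ∧ β ≠ 0 := mul_ne_zero_iff.mp fun e => one_ne_zero (hdet.trans e)
  have h1 : r (h ^ (Fintype.card k - 1)) = 1 := by
    rw [map_pow, hpow, FiniteField.pow_card_sub_one_eq_one α h0.1,
      FiniteField.pow_card_sub_one_eq_one β h0.2]
    simp
  have h2 := hb.trace_pow_mul hd (A := r h) rfl (Fintype.card k - 1)
  rw [hker _ h1, zero_mul, Matrix.trace_zero, Nat.cast_sub Fintype.card_pos,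
    FiniteField.cast_card_eq_zero, Nat.cast_one, zero_sub, neg_one_mul, eq_comm, neg_eq_zero] at h2
  exact h2

variable (p : ℕ) [Fact p.Prime] [CharP k p]

omit [Finite k] in
theorem exists_natCast_inv {a : ℕ} (ha : ¬p ∣ a) : ∃ c : ℕ, (a : k) * c = 1 := by
  refine ⟨((a : ZMod p)⁻¹).val, ?_⟩
  have h0 : (a : ZMod p) ≠ 0 := fun h => ha ((ZMod.natCast_eq_zero_iff _ _).mp h)
  have h1 := congrArg (ZMod.castHom (dvd_refl p) k) (mul_inv_cancel₀ h0)
  rwa [map_mul, map_natCast, map_one, ZMod.castHom_apply, ← ZMod.natCast_val] at h1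

omit [Finite k] [Fact p.Prime] [CharP k p] in
theorem exists_natCast_neg (p : ℕ) [Fact p.Prime] [CharP k p] (a : ℕ) :
    ∃ c : ℕ, (c : k) = -(a : k) := by
  refine ⟨a * (p - 1), ?_⟩
  rw [Nat.cast_mul, Nat.cast_sub (Fact.out : p.Prime).one_le, CharP.cast_eq_zero k p, Nat.cast_one]
  ring

/-- Vanishing at a unipotent element which has a suitable partner. -/
theorem IsCocycle.phi_eq_zero_of_pair (hr : TWHyp r) (hb : IsCocycle r b)
    (hker : ∀ g, r g = 1 → b g = 0) (hp5 : 5 ≤ p) {u v : G} {N M : Matrix (Fin 2) (Fin 2) k}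
    (hu : r u = 1 + N) (hN : N * N = 0) (hv : r v = 1 + M) (hM : M * M = 0)
    (hne : (N * M).trace ≠ 0) (h : (∀ a : ℕ, (N * M).trace ≠ a) ∨ 7 ≤ p) :
    phi r b u = 0 := by
  have hpp : p.Prime := Fact.out
  set l := (N * M).trace with hl
  -- the general step
  have key : ∀ i j : ℕ, (2 + (i : k) * j * l) ≠ 0 → (2 + (i : k) * j * l) ^ 2 ≠ 4 →
      (2 + ((i : k) + 1) * j * l) ^ 2 ≠ 4 → (2 + ((i : k) - 1) * j * l) ^ 2 ≠ 4 →
      phi r b u = 0 := by
    intro i j h0 h1 h2 h3
    set g := u ^ i * v ^ j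
    have hdg : (r g).det = 1 := by
      rw [_root_.map_mul, det_mul, map_pow, map_pow, det_pow, det_pow, det_eq_one hu hN,
        det_eq_one hv hM, one_pow, one_pow, one_mul]
    have hdu := det_eq_one hu hN
    have hNt := trace_eq_zero_of_sq hN
    have hMt := trace_eq_zero_of_sq hM
    have tg : (r g).trace = 2 + (i : k) * j * l := by
      rw [_root_.map_mul, map_pow_unip hu hN, map_pow_unip hv hM, trace_one_add_mul hNt hMt]
    have tgu : (r (g * u)).trace = 2 + ((i : k) + 1) * j * l := by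
      rw [_root_.map_mul, Matrix.trace_mul_comm, ← _root_.map_mul,
        show u * g = u ^ (i + 1) * v ^ j by rw [pow_succ', mul_assoc], _root_.map_mul,
        map_pow_unip hu hN, map_pow_unip hv hM, trace_one_add_mul hNt hMt]
      push_cast
      rfl
    have tu : (r u).trace = 2 := by
      rw [hu, Matrix.trace_add, hNt, Matrix.trace_one, Fintype.card_fin]; simp
    have tgiu : (r (g⁻¹ * u)).trace = 2 + ((i : k) - 1) * j * l := by
      have e := trace_add_trace_inv hdg u
      rw [tg, tgu, tu] at e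
      linear_combination e
    have hdgu : (r (g * u)).det = 1 := by rw [_root_.map_mul, det_mul, hdg, hdu, one_mul]
    have hdgi : (r (g⁻¹ * u)).det = 1 := by
      rw [_root_.map_mul, det_mul, det_map_inv hdg, hdu, one_mul]
    have e := hb.phi_add_phi_inv hdg u
    rw [hb.phi_eq_zero_of_regular hr hker hdgu (by rwa [tgu]),
      hb.phi_eq_zero_of_regular hr hker hdgi (by rwa [tgiu]),
      hb.phi_eq_zero_of_regular hr hker hdg (by rwa [tg]), tg, add_zero, zero_mul, zero_add,
      eq_comm, mul_eq_zero] at e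
    exact e.resolve_left h0
  by_cases hnat : ∃ a : ℕ, l = a
  · -- the trace is in the prime field
    have hp7 : 7 ≤ p := h.resolve_left fun h' => hnat.elim h'
    obtain ⟨a, ha⟩ := hnat
    obtain ⟨c, hc⟩ := exists_natCast_inv p (k := k) (a := a)
      fun hd => hne (ha.trans ((CharP.cast_eq_zero_iff k p a).mpr hd))
    have hi : (((p - 1) / 2 : ℕ) : k) * 2 = -1 := by
      have h2 : (p - 1) / 2 * 2 = p - 1 :=
        Nat.div_mul_cancel (hpp.even_sub_one (by omega)).two_dvd
      rw [show (2 : k) = ((2 : ℕ) : k) by norm_num, ← Nat.cast_mul, h2,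
        Nat.cast_sub hpp.one_le, CharP.cast_eq_zero, Nat.cast_one, zero_sub]
    have e1 : (((p - 1) / 2 : ℕ) : k) * ((2 * c : ℕ) : k) * l = -1 := by
      rw [ha]; push_cast
      linear_combination (a : k) * c * hi - hc
    have e2 : ((2 * c : ℕ) : k) * l = 2 := by
      rw [ha]; push_cast
      linear_combination 2 * hc
    have h3 : (3 : k) ≠ 0 := by
      simpa [CharP.cast_eq_zero_iff k p] using mt (CharP.cast_eq_zero_iff k p 3).1
        (Nat.not_dvd_of_pos_of_lt (by norm_num) (by omega))
    have h5 : (5 : k) ≠ 0 := by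
      simpa [CharP.cast_eq_zero_iff k p] using mt (CharP.cast_eq_zero_iff k p 5).1
        (Nat.not_dvd_of_pos_of_lt (by norm_num) (by omega))
    refine key ((p - 1) / 2) (2 * c) ?_ ?_ ?_ ?_
    · rw [e1]; norm_num
    · rw [e1]; exact fun e => h3 (by linear_combination -e)
    · rw [add_mul, add_mul, one_mul, e1, e2]
      exact fun e => h5 (by linear_combination e)
    · rw [sub_mul, sub_mul, one_mul, e1, e2]
      exact fun e => h3 (by linear_combination -e)
  · -- the trace is outside the prime field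
    push Not at hnat
    have hmul : ∀ n : ℕ, 0 < n → n < p → ∀ m : ℕ, (n : k) * l ≠ -(m : k) := by
      intro n hn hn' m e
      obtain ⟨c, hc⟩ := exists_natCast_inv p (k := k) (Nat.not_dvd_of_pos_of_lt hn hn')
      obtain ⟨d, hd⟩ := exists_natCast_neg p (k := k) (m * c)
      refine hnat d ?_
      rw [hd]; push_cast
      linear_combination (c : k) * e - l * hc
    have hsq : ∀ n : ℕ, 0 < n → n < p → (2 + (n : k) * l) ^ 2 ≠ 4 := by
      intro n hn hn' e
      have : ((n : k) * l) * ((n : k) * l + 4) = 0 := by linear_combination e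
      rcases mul_eq_zero.mp this with e' | e'
      · exact hmul n hn hn' 0 (by rw [e']; simp)
      · exact hmul n hn hn' 4 (by push_cast; linear_combination e')
    refine key 2 1 ?_ ?_ ?_ ?_
    · intro e
      exact hmul 2 two_pos (by omega) 2 (by push_cast at e ⊢; linear_combination e)
    · have := hsq 2 two_pos (by omega)
      push_cast at this ⊢
      simpa using this
    · have := hsq 3 (by norm_num) (by omega)
      push_cast at this ⊢
      rw [mul_one, show (2 : k) + 1 = 3 by norm_num]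
      exact this
    · have := hsq 1 one_pos hpp.one_lt
      push_cast at this ⊢
      rw [mul_one, show (2 : k) - 1 = 1 by norm_num]
      exact this

omit [Finite k] in
/-- Characteristic three. -/
theorem IsCocycle.phi_eq_zero_of_three (hb : IsCocycle r b) (hker : ∀ g, r g = 1 → b g = 0)
    (h3 : p = 3) {u : G} {N : Matrix (Fin 2) (Fin 2) k} (hu : r u = 1 + N) (hN : N * N = 0) :
    phi r b u = 0 := by
  subst h3
  have c3 : (3 : k) = 0 := by simpa using CharP.cast_eq_zero k 3
  by_cases hN0 : N = 0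
  · rw [phi, hu, hN0, add_zero, mul_one, hb.trace]
  have h1 : r (u ^ 3) = 1 := by
    rw [map_pow_unip hu hN, CharP.cast_eq_zero, zero_smul, add_zero]
  have hstep : ∀ {w : G} {P : Matrix (Fin 2) (Fin 2) k}, r w = 1 + P → P * P = 0 →
      ad r w (b u) = b u + (P * b u - b u * P) - (b u * P).trace • P := by
    intro w P hw hP
    rw [ad_apply, det_eq_one hw hP, one_smul, hw, map_inv_unip hw hP, ← sandwich hP]
    simp only [add_mul, mul_sub, one_mul, mul_one]
    abel
  have e : b (u ^ 3) = ad r (u ^ 2) (b u) + (ad r u (b u) + b u) := by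
    rw [pow_succ, hb.map_mul, pow_two, hb.map_mul]
  rw [hker _ h1, hstep (map_pow_unip hu hN 2) (smul_sq hN _), hstep hu hN] at e
  simp only [smul_mul_assoc, mul_smul_comm, Matrix.trace_smul, smul_eq_mul, smul_smul,
    Nat.cast_ofNat] at e
  have e2 : ((-5 : k) * (b u * N).trace) • N = 0 := by
    calc ((-5 : k) * (b u * N).trace) • N
        = (3 : k) • b u + (3 : k) • (N * b u - b u * N) + ((-5 : k) * (b u * N).trace) • N := by
          rw [c3]; simp
      _ = 0 := by rw [e]; module
  have h5 : (-5 : k) ≠ 0 := by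
    rw [show (-5 : k) = 1 - 2 * 3 by norm_num, c3, mul_zero, sub_zero]
    exact one_ne_zero
  have e3 := ((smul_eq_zero.mp e2).resolve_right hN0 |> mul_eq_zero.mp).resolve_left h5
  rw [phi, hu, mul_add, mul_one, Matrix.trace_add, hb.trace, zero_add, e3]

/-- Characteristic five: here the twist by the determinant is needed. -/
theorem IsCocycle.phi_eq_zero_of_five (hr : TWHyp r) (hb : IsCocycle r b)
    (hker : ∀ g, r g = 1 → b g = 0) (h5 : p = 5) (hdet : ∃ g, (r g).det = 2)
    {u : G} {N : Matrix (Fin 2) (Fin 2) k} (hu : r u = 1 + N) (hN : N * N = 0) :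
    phi r b u = 0 := by
  subst h5
  by_contra hc
  have hN0 : N ≠ 0 := fun h => hc (by rw [phi, hu, h, add_zero, mul_one, hb.trace])
  -- an opposite unipotent
  obtain ⟨g, hg⟩ := hr.exists_pair hN0 hN
  have hv₀ := map_conj_unip hu g
  have hM₀ := conj_sq (r := r) hN g
  set M₀ := r g * N * r g⁻¹
  obtain ⟨a, ha⟩ : ∃ a : ℕ, (N * M₀).trace = a := by
    by_contra h
    push Not at h
    exact hc (hb.phi_eq_zero_of_pair 5 hr hker le_rfl hu hN hv₀ hM₀ hg (Or.inl h))
  obtain ⟨j, hj⟩ := exists_natCast_inv 5 (k := k) (a := a)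
    fun hd => hg (ha.trans ((CharP.cast_eq_zero_iff k 5 a).mpr hd))
  set v := (g * u * g⁻¹) ^ j
  obtain ⟨M, hMdef⟩ : ∃ M : Matrix (Fin 2) (Fin 2) k, M = (j : k) • M₀ := ⟨_, rfl⟩
  have hv : r v = 1 + M := by rw [hMdef]; exact map_pow_unip hv₀ hM₀ j
  have hM : M * M = 0 := by rw [hMdef]; exact smul_sq hM₀ _
  have hNM : (N * M).trace = 1 := by
    simp only [hMdef, mul_smul_comm, Matrix.trace_smul, smul_eq_mul, ha]
    rw [mul_comm, hj]
  have hNMN : N * M * N = N := by rw [sandwich hN, Matrix.trace_mul_comm, hNM, one_smul]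
  have hone := add_eq_one_of_sq hN hM hNM
  -- `u` and `v⁻¹` are conjugate
  have hphiv : phi r b v = phi r b u := by
    have hx : r (u * v⁻¹ * u) = N - M := by
      rw [_root_.map_mul, _root_.map_mul, map_inv_unip hv hM, hu]
      have : (1 + N) * (1 - M) * (1 + N) = 1 + (2 : k) • N - M - (N * M + M * N) - N * M * N := by
        simp only [add_mul, mul_add, sub_mul, mul_sub, one_mul, mul_one, hN, two_smul]
        abel
      rw [this, hone, hNMN]
      module
    have hxu : r (v⁻¹ * (u * v⁻¹ * u)) = r (u * v⁻¹ * u * u) := by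
      rw [_root_.map_mul r v⁻¹, _root_.map_mul r (u * v⁻¹ * u) u, hx, map_inv_unip hv hM, hu]
      simp only [mul_add, sub_mul, mul_sub, one_mul, mul_one, hN, hM]
      abel
    have hxd : (r (u * v⁻¹ * u)).det = 1 := by
      rw [_root_.map_mul, _root_.map_mul, map_inv_unip hv hM, det_mul, det_mul, det_eq_one hu hN,
        sub_eq_add_neg, det_one_add (by rw [neg_mul_neg, hM]), one_mul, one_mul]
    have h1 : r (u * v⁻¹ * u * u * (u * v⁻¹ * u)⁻¹) = r v⁻¹ := by
      rw [_root_.map_mul r _ (u * v⁻¹ * u)⁻¹, ← hxu, ← _root_.map_mul, mul_inv_cancel_right]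
    have h2 : phi r b v⁻¹ = phi r b u := by
      rw [← hb.phi_congr hker h1, hb.phi_conj _ (det_eq_one hu hN), hxd, one_mul]
    have h3 : r v⁻¹ = r (v ^ 4) := by
      rw [map_inv_unip hv hM, map_pow_unip hv hM, show ((4 : ℕ) : k) = -1 by
        have := CharP.cast_eq_zero k 5
        push_cast at this ⊢
        linear_combination this, neg_one_smul, sub_eq_add_neg]
    rw [hb.phi_congr hker h3, hb.phi_pow_unip hv hM] at h2
    rw [← h2]
    have h16 : ((4 : ℕ) : k) ^ 2 = 1 := by
      have := CharP.cast_eq_zero k 5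
      push_cast at this ⊢
      linear_combination 3 * this
    rw [h16, one_mul]
  -- the conjugate of `u` by an element of determinant two
  obtain ⟨g₂, hg₂⟩ := hdet
  have hw := map_conj_unip hu g₂
  have hP := conj_sq (r := r) hN g₂
  set w := g₂ * u * g₂⁻¹
  set P := r g₂ * N * r g₂⁻¹
  have h2 : (2 : k) ≠ 0 := hr.two
  have hphiw : phi r b w = 2 * phi r b u := by
    rw [hb.phi_conj g₂ (det_eq_one hu hN), hg₂]
  have hwne : phi r b w ≠ 0 := by rw [hphiw]; exact mul_ne_zero h2 hc
  have hnat : ∀ {z : G} {Q : Matrix (Fin 2) (Fin 2) k}, r z = 1 + Q → Q * Q = 0 →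
      ∃ n : ℕ, (P * Q).trace = n := by
    intro z Q hz hQ
    by_cases h0 : (P * Q).trace = 0
    · exact ⟨0, by rw [h0, Nat.cast_zero]⟩
    by_contra h
    push Not at h
    exact hwne (hb.phi_eq_zero_of_pair 5 hr hker le_rfl hw hP hz hQ h0 (Or.inl h))
  obtain ⟨x, hx⟩ := hnat hv hM
  obtain ⟨y, hy⟩ := hnat hu hN
  obtain ⟨H, hH⟩ : ∃ H, H = N * M - M * N := ⟨_, rfl⟩
  have hconj : ∀ i : ℕ, r (u ^ i) * M * r (u ^ i)⁻¹ =
      M + (i : k) • H - ((i : k) ^ 2) • N := by
    intro i
    rw [map_pow_unip hu hN, map_inv_unip (map_pow_unip hu hN i) (smul_sq hN _)]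
    simp only [add_mul, mul_sub, one_mul, mul_one, smul_mul_assoc, mul_smul_comm, hNMN, hH]
    module
  have hs := map_conj_unip hv (u ^ 1)
  have hsq := conj_sq (r := r) hM (u ^ 1)
  obtain ⟨z, hz⟩ := hnat hs hsq
  rw [hconj 1, Nat.cast_one, one_pow, one_smul, one_smul] at hz
  obtain ⟨c₀, hc₀⟩ : ∃ c₀, c₀ = (P * (N * M)).trace := ⟨_, rfl⟩
  have hPH : (P * H).trace = 2 * c₀ := by
    have h' : (P * (N * M)).trace + (P * (M * N)).trace = 0 := by
      rw [← Matrix.trace_add, ← mul_add, hone, mul_one, trace_eq_zero_of_sq hP]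
    simp only [hH, hc₀, mul_sub, Matrix.trace_sub]
    linear_combination -h'
  rw [mul_sub, mul_add, Matrix.trace_sub, Matrix.trace_add, hx, hy, hPH] at hz
  have hdec := decomp hN hM hNM (trace_eq_zero_of_sq hP)
  rw [hx, hy, ← hc₀, ← hH] at hdec
  have hquad : (x : k) * y + c₀ ^ 2 = 0 := by
    have e : (P * P).trace = 0 := by rw [hP, Matrix.trace_zero]
    nth_rewrite 2 [hdec] at e
    rw [mul_add, mul_add, Matrix.trace_add, Matrix.trace_add, mul_smul_comm, mul_smul_comm,
      mul_smul_comm, Matrix.trace_smul, Matrix.trace_smul, Matrix.trace_smul, hx, hy, hPH,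
      smul_eq_mul, smul_eq_mul, smul_eq_mul] at e
    refine (mul_eq_zero.mp (?_ : (2 : k) * ((x : k) * y + c₀ ^ 2) = 0)).resolve_left h2
    linear_combination e
  have hfin : ∃ n : ℕ, phi r b w = (n : k) ^ 2 * phi r b u := by
    by_cases hy0 : (y : k) = 0
    · have hc0 : c₀ = 0 := by
        rw [hy0, mul_zero, zero_add] at hquad
        exact pow_eq_zero_iff two_ne_zero |>.mp hquad
      refine ⟨x, ?_⟩
      rw [← hb.phi_pow_unip hu hN]
      refine hb.phi_congr hker ?_
      rw [hw, map_pow_unip hu hN]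
      conv_lhs => rw [hdec]
      rw [hy0, hc0, zero_smul, zero_smul, add_zero, add_zero]
    · obtain ⟨y', hy'⟩ := exists_natCast_inv 5 (k := k) (a := y)
        fun hd => hy0 ((CharP.cast_eq_zero_iff k 5 y).mpr hd)
      obtain ⟨c', hc'⟩ : ∃ c' : ℕ, (c' : k) = c₀ := by
        obtain ⟨d, hd⟩ := exists_natCast_neg 5 (k := k) x
        refine ⟨3 * (z + d + y), ?_⟩
        push_cast
        rw [hd]
        have h5' := CharP.cast_eq_zero k 5
        push_cast at h5'
        linear_combination -3 * hz + c₀ * h5'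
      refine ⟨y, ?_⟩
      have hi : (y : k) * ((c' * y' : ℕ) : k) = c₀ := by
        push_cast
        linear_combination (c' : k) * hy' + hc'
      have he : r w = r (u ^ (c' * y') * v ^ y * (u ^ (c' * y'))⁻¹) := by
        rw [hw, map_conj_unip (map_pow_unip hv hM y), mul_smul_comm, smul_mul_assoc, hconj,
          smul_sub, smul_add, smul_smul, smul_smul, hi,
          show (y : k) * ((c' * y' : ℕ) : k) ^ 2 = -(x : k) from mul_left_cancel₀ hy0 (by
            linear_combination ((y : k) * ((c' * y' : ℕ) : k) + c₀) * hi + hquad)]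
        conv_lhs => rw [hdec]
        module
      rw [hb.phi_congr hker he, hb.phi_conj _ (det_eq_one (map_pow_unip hv hM y) (smul_sq hM _)),
        map_pow, det_pow, det_eq_one hu hN, one_pow, one_mul, hb.phi_pow_unip hv hM, hphiv]
  obtain ⟨n, hn⟩ := hfin
  rw [hphiw] at hn
  have h22 : ((n ^ 2 : ℕ) : k) = ((2 : ℕ) : k) := by
    push_cast
    exact (mul_right_cancel₀ hc hn).symm
  rw [CharP.natCast_eq_natCast k 5, Nat.ModEq, Nat.pow_mod] at h22
  have : n % 5 < 5 := Nat.mod_lt _ (by norm_num)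
  generalize n % 5 = t at h22 this
  interval_cases t <;> simp at h22

variable (hδ : ∀ a : ℕ, ¬p ∣ a → ∃ g, (r g).det = (a : k))
include hδ

/-- The trace function vanishes at all unipotent elements. -/
theorem IsCocycle.phi_eq_zero_of_unip (hr : TWHyp r) (hb : IsCocycle r b)
    (hker : ∀ g, r g = 1 → b g = 0) {u : G} {N : Matrix (Fin 2) (Fin 2) k} (hu : r u = 1 + N)
    (hN : N * N = 0) : phi r b u = 0 := by
  have hpp : p.Prime := Fact.out
  by_cases h3 : p = 3
  · exact hb.phi_eq_zero_of_three p hker h3 hu hN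
  have hp2 : p ≠ 2 := fun h => hr.two (by subst h; simpa using CharP.cast_eq_zero k 2)
  by_cases h5 : p = 5
  · refine hb.phi_eq_zero_of_five p hr hker h5 ?_ hu hN
    obtain ⟨g, hg⟩ := hδ 2 (Nat.not_dvd_of_pos_of_lt two_pos (by omega))
    exact ⟨g, by simpa using hg⟩
  by_cases hN0 : N = 0
  · rw [phi, hu, hN0, add_zero, mul_one, hb.trace]
  obtain ⟨g, hg⟩ := hr.exists_pair hN0 hN
  have hp7 : 7 ≤ p := by
    rcases Nat.lt_or_ge p 7 with h | h
    · interval_cases p <;> first | omega | exact absurd hpp (by norm_num)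
    · exact h
  exact hb.phi_eq_zero_of_pair p hr hker (by omega) hu hN (map_conj_unip hu g) (conj_sq hN g) hg
    (Or.inr hp7)

/-- The trace function vanishes at all elements of determinant one. -/
theorem IsCocycle.phi_eq_zero (hr : TWHyp r) (hb : IsCocycle r b)
    (hker : ∀ g, r g = 1 → b g = 0) {h : G} (hd : (r h).det = 1) : phi r b h = 0 := by
  by_cases ht : (r h).trace ^ 2 = 4
  swap
  · exact hb.phi_eq_zero_of_regular hr hker hd ht
  have hsq : ((r h).trace - 2) * ((r h).trace + 2) = 0 := by linear_combination ht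
  rcases mul_eq_zero.mp hsq with e | e
  · refine hb.phi_eq_zero_of_unip p hδ hr hker (N := r h - 1) (by abel) ?_
    rw [sub_mul, mul_sub, mul_sub, mul_self_eq, hd, sub_eq_zero.mp e]
    simp only [one_mul, mul_one, one_smul]
    module
  · have hN : (-r h - 1) * (-r h - 1) = 0 := by
      rw [sub_mul, mul_sub, mul_sub, neg_mul_neg, mul_self_eq, hd, eq_neg_of_add_eq_zero_left e]
      simp only [one_mul, mul_one, one_smul]
      module
    have hp : r (h ^ p) = (-1 : k) • (1 : M₂) := by
      rw [map_pow, show r h = -(1 + (-r h - 1)) by abel, neg_pow, pow_one_add hN,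
        CharP.cast_eq_zero, zero_smul, add_zero, mul_one, neg_one_smul]
      refine ((Fact.out : p.Prime).odd_of_ne_two fun h2 => hr.two ?_).neg_one_pow
      subst h2
      simpa using CharP.cast_eq_zero k 2
    set z := h ^ p
    have hz : b z = 0 := by
      have hdz : (r z).det = 1 := by rw [map_pow, det_pow, hd, one_pow]
      have hzz : r (z * z) = 1 := by rw [_root_.map_mul, hp]; simp
      have e' := hb.map_mul z z
      rw [hker _ hzz, ad_apply, hdz, one_smul, hp,
        show r z⁻¹ = r z from by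
          calc r z⁻¹ = r z⁻¹ * r (z * z) := by rw [hzz, mul_one]
            _ = r z := by rw [_root_.map_mul, ← mul_assoc, rinv_mul, one_mul], hp] at e'
      simp only [neg_one_smul, neg_mul, mul_neg, neg_neg, one_mul, mul_one] at e'
      rw [← two_smul k (b z), eq_comm, smul_eq_zero] at e'
      exact e'.resolve_left hr.two
    have hu : r (h * z) = 1 + (-r h - 1) := by
      rw [_root_.map_mul, hp, mul_smul_comm, mul_one, neg_one_smul]; abel
    have hh : r h = r (h * z * z) := by
      rw [_root_.map_mul, hu, hp, mul_smul_comm, mul_one, neg_one_smul]; abel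
    rw [hb.phi_congr hker hh, phi_mul_of_scalar hb hz hp,
      hb.phi_eq_zero_of_unip p hδ hr hker hu hN, mul_zero]

end Fermat.Agent.CFT.TWPrimes
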