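import Fermat.Agent.CFT.TWPrimes.Main
import Fermat.Agent.Deform.Residual
import Fermat.Prelude.Def_GaloisRep_LocalConditions

/-!
# The hypotheses of the Taylor–Wiles lemma for a residual representation
-/

set_option autoImplicit false

noncomputable section

namespace Fermat.Agent.CFT.TWPrimes

open Module Fermat.Agent.Deform
open scoped TensorProduct

variable {k : Type} [Field k] (ρ : ResidualGaloisRep k) (b : Basis (Fin 2) k ρ.V)

/-- No stable line, from the irreducibility of a base change. -/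
theorem noLine_matRes (K : Type) [Field K] [Algebra k K] (H : Subgroup Gal)
    (h : ∀ V : Submodule K (ρ.baseChange K).V,
      (∀ σ ∈ H, ∀ x ∈ V, (ρ.baseChange K).ρ σ x ∈ V) → V = ⊥ ∨ V = ⊤) :
    NoLine (matRes ρ b) H := by
  rintro ⟨w, hw, hstab⟩
  set v : ρ.V := b.equivFun.symm w with hvdef
  let x : (ρ.baseChange K).V := (1 : K) ⊗ₜ[k] v
  have hx : x ≠ 0 := by
    intro h0
    refine hw (funext fun i => (algebraMap k K).injective ?_)
    have h1 := congrArg (fun z => (b.baseChange K).repr z i) h0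
    simp only [x, map_zero, Finsupp.zero_apply] at h1
    rw [Basis.baseChange_repr_tmul, ← Basis.equivFun_apply, hvdef, LinearEquiv.apply_symm_apply,
      Algebra.smul_def, mul_one] at h1
    rw [h1, Pi.zero_apply, map_zero]
  have hact : ∀ σ : Gal, b.equivFun (ρ.ρ σ v) = (matRes ρ b σ).mulVec w := fun σ => by
    rw [← b.equivFun.apply_symm_apply w, ← hvdef]
    exact (LinearMap.toMatrix_mulVec_repr b b (ρ.ρ σ) v).symm
  rcases h (Submodule.span K {x}) (fun σ hσ z hz => by
    obtain ⟨c, rfl⟩ := Submodule.mem_span_singleton.mp hz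
    obtain ⟨d, hd⟩ := hstab σ hσ
    have hv : ρ.ρ σ v = d • v := b.equivFun.injective (by
      rw [hact σ, hd, map_smul, hvdef, LinearEquiv.apply_symm_apply])
    rw [map_smul]
    refine Submodule.smul_mem _ c (Submodule.mem_span_singleton.mpr ⟨algebraMap k K d, ?_⟩)
    show algebraMap k K d • ((1 : K) ⊗ₜ[k] v) = (1 : K) ⊗ₜ[k] (ρ.ρ σ v)
    rw [hv, TensorProduct.tmul_smul, algebraMap_smul]) with hbot | htop
  · exact hx ((Submodule.span_singleton_eq_bot).mp hbot)
  · have h1 := finrank_span_singleton (K := K) hx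
    rw [htop, finrank_top, (ρ.baseChange K).finrank_eq] at h1
    omega

/-- `TWHyp` from the hypotheses of the Taylor–Wiles statement. -/
theorem twHyp_matRes (h2 : (2 : k) ≠ 0) (habs : ρ.IsAbsolutelyIrreducible)
    (hsplit : ∀ σ : Gal, ∃ α β : k, LinearMap.charpoly (ρ.ρ σ) =
      (Polynomial.X - Polynomial.C α) * (Polynomial.X - Polynomial.C β))
    (hTW : ∀ G : Subgroup Gal, G.index = 2 → ∀ V : Submodule k (ρ.baseChange k).V,
      (∀ σ ∈ G, ∀ x ∈ V, (ρ.baseChange k).ρ σ x ∈ V) → V = ⊥ ∨ V = ⊤) :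
    TWHyp (matRes ρ b) where
  two := h2
  split σ := by
    obtain ⟨α, β, h⟩ := hsplit σ
    rw [← LinearMap.charpoly_toMatrix (ρ.ρ σ) b] at h
    exact ⟨α, β, trace_det_of_charpoly (M := matRes ρ b σ) h⟩
  irred := noLine_matRes ρ b (AlgebraicClosure k) ⊤
    fun V hV => habs V fun σ x hx => hV σ (Subgroup.mem_top σ) x hx
  indexTwo H hH := noLine_matRes ρ b k H (hTW H hH)

theorem finiteLevel_matRes : GaloisFactorsThroughFiniteLevel (matRes ρ b) := by
  obtain ⟨L, hL, h1⟩ := ρ.factorsThroughFiniteLevel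
  refine ⟨L, hL, fun σ hσ => ?_⟩
  show LinearMap.toMatrixAlgEquiv b (ρ.ρ σ) = 1
  rw [h1 σ hσ, map_one]

theorem det_matRes_of_detIsCyclotomic (p : ℕ) [CharP k p]
    (hdet : (GaloisRepAdic.ofResidualGaloisRep ρ).DetIsCyclotomic p) (σ : Gal) (a : ℕ)
    (h : ∀ μ : AlgebraicClosure ℚ, μ ^ p = 1 → σ μ = μ ^ a) :
    (matRes ρ b σ).det = (a : k) := by
  have e := hdet.2 1 σ a (by simpa using h)
  rw [pow_one, CharP.cast_eq_zero, Ideal.span_singleton_eq_bot.mpr rfl, Ideal.mem_bot,
    sub_eq_zero] at e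
  rw [← e]
  show (LinearMap.toMatrixAlgEquiv b (ρ.ρ σ)).det = LinearMap.det (ρ.ρ σ)
  rw [← LinearMap.det_toMatrix b]
  rfl

end Fermat.Agent.CFT.TWPrimes
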